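import Fermat.Agent.TraceDistribution.Basic
import Fermat.Agent.Root.SummaryTorsionFieldAbelian
import Fermat.Agent.Tau.AlmostAll

/-!
# Traces divisible by a given integer on a divergent set of primes

The image of complex conjugation in the level `m` representation of an elliptic curve has trace
zero, so by Chebotarev the good primes with `a_q ≡ 0 (mod m)` have a divergent sum of reciprocals.
-/

set_option autoImplicit false
set_option linter.style.haveILetI false

noncomputable section

open NumberField IsDedekindDomain WeierstrassCurve Matrix FA.Frob FA.RT.Tate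
open scoped WeierstrassCurve.Affine

namespace FA.CoeffAlmostAll

local notation "Qb" => AlgebraicClosure ℚ
local notation "GQ" => AlgebraicClosure ℚ ≃ₐ[ℚ] AlgebraicClosure ℚ

variable {W : WeierstrassCurve ℤ} [(ratCurve W).IsElliptic]

/-- Complex conjugation has trace zero at every level. -/
theorem trace_repLevel_complexConjugation (m : ℕ) [NeZero m] :
    (FA.TraceDist.repLevel W m complexConjugation).trace = 0 := by
  apply (ZMod.equivPi m (NeZero.ne m)).injective
  funext p
  haveI := FA.TraceDist.fact_prime_of_mem p
  set B := FA.TraceDist.basisAt W p with hB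
  have hct : (B.rep complexConjugation).trace = 0 := FA.TorsionField.trace_eq_zero_of_involution
    (by rw [← map_mul, complexConjugation_mul_self, map_one])
    (by rw [B.det_rep, FA.TorsionField.cycP_complexConjugation])
  rw [FA.TraceDist.equivPi_trace, map_zero, Pi.zero_apply]
  show ((B.rep complexConjugation).map (PadicInt.toZModPow (m.factorization p))).trace = 0
  rw [trace_fin_two, Matrix.map_apply, Matrix.map_apply, ← map_add, ← trace_fin_two, hct,
    map_zero]

/-- **The good primes with `a_q ≡ 0 (mod m)` have a divergent sum of reciprocals.** -/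
theorem not_summable_trace_dvd (hΔ : W.Δ ≠ 0) (m : ℕ) [NeZero m] :
    ¬ Summable ({q : ℕ | q.Prime ∧ W.IsGoodPrimeFor q ∧ (m : ℤ) ∣ W.apOfModel q}.indicator
      fun n : ℕ => (1 : ℝ) / n) := by
  classical
  set π := (FA.TraceDist.glLevel W m).rangeRestrict with hπ
  let _ : Fintype (FA.TraceDist.glLevel W m).range := Fintype.ofFinite _
  set X : Set (FA.TraceDist.glLevel W m).range := {g | g.1.val.trace = 0}
  have hdens := FA.Chebotarev.hasDirichletDensity_frobSet π
    (MonoidHom.rangeRestrict_surjective _)
    (by rw [hπ, MonoidHom.ker_rangeRestrict]; exact FA.TraceDist.isOpen_ker_glLevel) (X := X)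
    fun g hg x => by
      show (x * g * x⁻¹).1.val.trace = 0
      rw [Subgroup.coe_mul, Subgroup.coe_mul, InvMemClass.coe_inv, Units.val_mul, Units.val_mul,
        trace_units_conj]
      exact hg
  haveI : Nonempty X := ⟨⟨π complexConjugation, trace_repLevel_complexConjugation m⟩⟩
  refine FA.PrimeDivisors.not_summable_of_density hdens
    (div_ne_zero (Nat.cast_ne_zero.mpr Nat.card_pos.ne') (Nat.cast_ne_zero.mpr Fintype.card_ne_zero))
    (FA.TraceDist.finite_dvd (M := m * W.Δ) (mul_ne_zero (Nat.cast_ne_zero.mpr (NeZero.ne m)) hΔ))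
    fun v hv => or_iff_not_imp_left.mpr fun hD => ?_
  have hq := FA.Chebotarev.absNorm_prime v
  have hgood : W.IsGoodPrimeFor (Ideal.absNorm v.asIdeal) := fun hd => hD (hd.mul_left _)
  obtain ⟨A, hA⟩ := FA.Deform.exists_liesOverPrime hq
  obtain ⟨σ, hσ⟩ := FA.Deform.exists_isFrobeniusAt hq hA
  obtain ⟨ht, -⟩ := FA.TraceDist.repLevel_frobenius (N := m) hq
    (fun hd => hD ((Int.natCast_dvd_natCast.mpr hd).mul_right _)) hgood hA hσ
  refine ⟨hq, hgood, (ZMod.intCast_zmod_eq_zero_iff_dvd _ m).mp ?_⟩
  rw [← ht]
  exact hv A hA σ hσ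

end FA.CoeffAlmostAll

end
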